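import Fermat.Agent.S41.Final49.IntCoeff

set_option autoImplicit false

/-!
# S41 / C12 [ES-FINAL] (helper20): the tail of level raising with WEAK stability hypotheses

`Final49.levelRaising_tail(_int)` (helper49) asks that the lattice `K` (= `ker β₁ ⊓ ker β₂`) be
stable under `TX ℓ` for ALL primes `ℓ` (including `U_ℓ`, `ℓ ∣ N`, and `U_{q'}`).  Here we show that
stability under the ANEMIC operators `TX ℓ`, `ℓ ∈ PS`, is enough (plus `TX q ∘ TX q = id` on `K`,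
which does not require `TX q K ⊆ K`): the full Hecke algebra is brought in on the `ℂ`-subspace

  `{w ∈ parabolicHoms ℂ | (∀ ℓ ∈ PS, TX ℓ w = ψ ℓ • w) ∧ TX q (TX q w) = w}`,

which is stable under every `TX ℓ` because the `TX ℓ` commute on the range of the
Eichler–Shimura map (`Final49.TX_comm_on_range`, inherited from the forms side).

So the cohomological side does NOT owe `cores ∘ U_ℓ = U_ℓ ∘ cores` for `ℓ ∣ N`, nor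
`U_{q'} K ⊆ K`.
-/

namespace Fermat.Agent.S41.ESFinal20

open ModularCurve ModularCurve.Period CongruenceSubgroup CuspForm
open Fermat.Agent.S21.PeriodPrim Fermat.Agent.S41.DS49 Fermat.Agent.S41.Final49

variable {M : ℕ} [NeZero M]

section Tail

variable (TX : ℕ → Module.End ℂ (Additive (Gamma0 M) →+ ℂ))
  (hE1 : ∀ ℓ (hℓ : ℓ.Prime) (hℓM : ¬ ℓ ∣ M) (f : CuspForm (Gamma0 M) 2),
    TX ℓ (periodMap M f) = periodMap M (heckeTLin 2 hℓ hℓM f))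
  (hE2 : ∀ ℓ (_ : ℓ.Prime) (hℓM : ℓ ∣ M) (f : CuspForm (Gamma0 M) 2),
    TX ℓ (periodMap M f) = periodMap M (heckeULin 2 hℓM f))
  (hE3 : ∀ ℓ, ℓ.Prime → ∀ φ : Additive (Gamma0 M) →+ ℂ,
    TX ℓ (charInvolution M ℂ ℂ φ) = charInvolution M ℂ ℂ (TX ℓ φ))

include hE1 hE2 hE3 in
/-- `TX ℓ` preserves the range of the Eichler–Shimura map. -/
theorem TX_mem_range {ℓ : ℕ} (hℓ : ℓ.Prime) (w : Additive (Gamma0 M) →+ ℂ)
    (hw : w ∈ LinearMap.range (periodHomPair M)) :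
    TX ℓ w ∈ LinearMap.range (periodHomPair M) := by
  obtain ⟨y, rfl⟩ := hw
  exact ⟨thetaD M ℓ y, periodHomPair_thetaD TX hE1 hE2 hE3 hℓ y⟩

include hE1 hE2 hE3 in
/-- **The tail of level raising, weak stability.**  Same conclusion as
`Final49.levelRaising_tail`; `K` only needs to be stable under `TX ℓ` for `ℓ ∈ PS`. -/
theorem levelRaising_tail_weak
    (hES : Function.Injective (periodHomPair M) ∧
      LinearMap.range (periodHomPair M) = parabolicHoms ℂ (Gamma0 M) ℂ)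
    {q p : ℕ} (hq : q.Prime) (hp : p.Prime)
    (K : Submodule ℤ (Additive (Gamma0 M) →+ ℂ)) (hKfg : K.FG)
    (hKpar : ∀ φ ∈ K, φ ∈ parabolicHoms ℂ (Gamma0 M) ℂ)
    (PS : Set ℕ) (hPS : ∀ ℓ ∈ PS, ℓ.Prime)
    (hKstab : ∀ ℓ ∈ PS, ∀ φ ∈ K, TX ℓ φ ∈ K)
    (hKq : ∀ φ ∈ K, TX q (TX q φ) = φ)
    (c : ℕ → ℤ)
    (x : Additive (Gamma0 M) →+ ℂ) (hx : x ∈ K) (hxp : ¬ ∃ y ∈ K, x = (p : ℤ) • y)
    (hcong : ∀ ℓ ∈ PS, ∃ y ∈ K, TX ℓ x - (c ℓ) • x = (p : ℤ) • y) :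
    ∃ (g : CuspForm (Gamma0 M) 2) (mu : ℕ → ℂ) (𝔪' : Ideal (integralClosure ℤ ℂ)),
      g ≠ 0 ∧ 𝔪'.IsMaximal ∧ (p : integralClosure ℤ ℂ) ∈ 𝔪' ∧
      (∀ (ℓ : ℕ) (hℓ : ℓ.Prime) (hℓM : ¬ ℓ ∣ M), heckeTLin 2 hℓ hℓM g = mu ℓ • g) ∧
      (∀ (ℓ : ℕ) (_ : ℓ.Prime) (hℓM : ℓ ∣ M), heckeULin 2 hℓM g = mu ℓ • g) ∧
      (∀ ℓ ∈ PS, ∃ a : integralClosure ℤ ℂ, (a : ℂ) = mu ℓ ∧
        a - ((c ℓ : ℤ) : integralClosure ℤ ℂ) ∈ 𝔪') ∧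
      mu q ^ 2 = 1 := by
  classical
  -- the complex span of the lattice
  let K0 : Submodule ℂ (Additive (Gamma0 M) →+ ℂ) :=
    Submodule.span ℂ (K : Set (Additive (Gamma0 M) →+ ℂ))
  have hK0par : K0 ≤ parabolicHoms ℂ (Gamma0 M) ℂ := Submodule.span_le.mpr hKpar
  have hK0range : ∀ w ∈ K0, w ∈ LinearMap.range (periodHomPair M) := by
    intro w hw
    rw [hES.2]
    exact hK0par hw
  have hK02 : ∀ φ ∈ K0, TX q (TX q φ) = φ := by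
    intro φ hφ
    have h := LinearMap.eqOn_span (f := (TX q) ∘ₗ (TX q)) (g := LinearMap.id)
      (s := (K : Set (Additive (Gamma0 M) →+ ℂ))) (fun y hy => hKq y hy) hφ
    exact h
  -- Deligne–Serre on the anemic operators
  obtain ⟨v, ψ, 𝔪', hvK, hv0, hv, hmax, hpm, hψ⟩ :=
    deligne_serre_lattice_of_commute_on_span K hKfg (fun i : PS => TX i.1)
      (fun i j w hw => TX_comm_on_range TX hE1 hE2 hE3 (hPS i.1 i.2) (hPS j.1 j.2) w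
        (hK0range w hw))
      (fun i y hy => hKstab i.1 i.2 y hy) hp (fun i : PS => c i.1) x hx hxp
      (fun i => hcong i.1 i.2)
  let ψ' : ℕ → ℂ := fun ℓ => if h : ℓ ∈ PS then ((ψ ⟨ℓ, h⟩ : integralClosure ℤ ℂ) : ℂ) else 0
  have hvψ : ∀ ℓ ∈ PS, TX ℓ v = ψ' ℓ • v := by
    intro ℓ hℓS
    simp only [ψ', dif_pos hℓS]
    exact hv ⟨ℓ, hℓS⟩
  -- the eigen-subspace on which the full Hecke algebra acts
  let Knew : Submodule ℂ (Additive (Gamma0 M) →+ ℂ) :=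
    { carrier := {w | w ∈ LinearMap.range (periodHomPair M) ∧
        (∀ ℓ ∈ PS, TX ℓ w = ψ' ℓ • w) ∧ TX q (TX q w) = w}
      add_mem' := by
        rintro a b ⟨ha1, ha2, ha3⟩ ⟨hb1, hb2, hb3⟩
        refine ⟨Submodule.add_mem _ ha1 hb1, fun ℓ hℓ => ?_, ?_⟩
        · rw [map_add, ha2 ℓ hℓ, hb2 ℓ hℓ, smul_add]
        · rw [map_add, map_add, ha3, hb3]
      zero_mem' := by
        refine ⟨Submodule.zero_mem _, fun ℓ _ => ?_, ?_⟩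
        · rw [map_zero, smul_zero]
        · rw [map_zero, map_zero]
      smul_mem' := by
        rintro r a ⟨ha1, ha2, ha3⟩
        refine ⟨Submodule.smul_mem _ r ha1, fun ℓ hℓ => ?_, ?_⟩
        · rw [map_smul, ha2 ℓ hℓ, smul_comm]
        · rw [map_smul, map_smul, ha3] }
  have hmemKnew : ∀ w, w ∈ Knew ↔ (w ∈ LinearMap.range (periodHomPair M) ∧
      (∀ ℓ ∈ PS, TX ℓ w = ψ' ℓ • w) ∧ TX q (TX q w) = w) := fun w => Iff.rfl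
  have hKnewpar : Knew ≤ parabolicHoms ℂ (Gamma0 M) ℂ := by
    intro w hw
    rw [← hES.2]
    exact ((hmemKnew w).mp hw).1
  have hKnew1 : ∀ ℓ, ℓ.Prime → ∀ φ ∈ Knew, TX ℓ φ ∈ Knew := by
    intro ℓ hℓ φ hφ
    obtain ⟨h1, h2, h3⟩ := (hmemKnew φ).mp hφ
    refine (hmemKnew _).mpr ⟨TX_mem_range TX hE1 hE2 hE3 hℓ φ h1, fun ℓ' hℓ' => ?_, ?_⟩
    · rw [TX_comm_on_range TX hE1 hE2 hE3 (hPS ℓ' hℓ') hℓ φ h1, h2 ℓ' hℓ', map_smul]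
    · have hqφ : TX q φ ∈ LinearMap.range (periodHomPair M) :=
        TX_mem_range TX hE1 hE2 hE3 hq φ h1
      rw [TX_comm_on_range TX hE1 hE2 hE3 hq hℓ φ h1,
        TX_comm_on_range TX hE1 hE2 hE3 hq hℓ (TX q φ) hqφ, h3]
  have hKnew2 : ∀ φ ∈ Knew, TX q (TX q φ) = φ := fun φ hφ => ((hmemKnew φ).mp hφ).2.2
  have hvKnew : v ∈ Knew :=
    (hmemKnew v).mpr ⟨hK0range v hvK, hvψ, hK02 v hvK⟩
  obtain ⟨g, mu, hg0, hT, hU, hmuS, hmuq⟩ :=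
    exists_full_eigenvector_of_eigenvector TX hE1 hE2 hE3 hES hq Knew hKnewpar hKnew1 hKnew2
      PS v hvKnew hv0 ψ' (fun ℓ hℓS _ => hvψ ℓ hℓS)
  refine ⟨g, mu, 𝔪', hg0, hmax, hpm, hT, hU, fun ℓ hℓS => ?_, hmuq⟩
  refine ⟨ψ ⟨ℓ, hℓS⟩, ?_, hψ ⟨ℓ, hℓS⟩⟩
  rw [hmuS ℓ hℓS (hPS ℓ hℓS)]
  simp only [ψ', dif_pos hℓS]

end Tail

/-- **The tail of level raising, integral coefficients, weak stability.**  Same conclusion as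
`Final49.levelRaising_tail_int`; the lattice `K` of `ℤ`-valued homs only needs to be stable under
`TZ ℓ` for `ℓ ∈ PS`, and `TZ q ∘ TZ q = id` on `K`. -/
theorem levelRaising_tail_int_weak
    (TX : ℕ → Module.End ℂ (Additive (Gamma0 M) →+ ℂ))
    (hE1 : ∀ ℓ (hℓ : ℓ.Prime) (hℓM : ¬ ℓ ∣ M) (f : CuspForm (Gamma0 M) 2),
      TX ℓ (periodMap M f) = periodMap M (heckeTLin 2 hℓ hℓM f))
    (hE2 : ∀ ℓ (_ : ℓ.Prime) (hℓM : ℓ ∣ M) (f : CuspForm (Gamma0 M) 2),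
      TX ℓ (periodMap M f) = periodMap M (heckeULin 2 hℓM f))
    (hE3 : ∀ ℓ, ℓ.Prime → ∀ φ : Additive (Gamma0 M) →+ ℂ,
      TX ℓ (charInvolution M ℂ ℂ φ) = charInvolution M ℂ ℂ (TX ℓ φ))
    (hES : Function.Injective (periodHomPair M) ∧
      LinearMap.range (periodHomPair M) = parabolicHoms ℂ (Gamma0 M) ℂ)
    (TZ : ℕ → Module.End ℤ (Additive (Gamma0 M) →+ ℤ))
    (hTZ : ∀ ℓ, ℓ.Prime → ∀ φ : Additive (Gamma0 M) →+ ℤ,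
      castHom (Gamma0 M) (TZ ℓ φ) = TX ℓ (castHom (Gamma0 M) φ))
    {q p : ℕ} (hq : q.Prime) (hp : p.Prime)
    (K : Submodule ℤ (Additive (Gamma0 M) →+ ℤ)) (hKfg : K.FG)
    (hKpar : K ≤ parabolicHoms ℤ (Gamma0 M) ℤ)
    (PS : Set ℕ) (hPS : ∀ ℓ ∈ PS, ℓ.Prime)
    (hKstab : ∀ ℓ ∈ PS, ∀ φ ∈ K, TZ ℓ φ ∈ K)
    (hKq : ∀ φ ∈ K, TZ q (TZ q φ) = φ)
    (c : ℕ → ℤ)
    (x : Additive (Gamma0 M) →+ ℤ) (hx : x ∈ K) (hxp : ¬ ∃ y ∈ K, x = (p : ℤ) • y)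
    (hcong : ∀ ℓ ∈ PS, ∃ y ∈ K, TZ ℓ x - (c ℓ) • x = (p : ℤ) • y) :
    ∃ (g : CuspForm (Gamma0 M) 2) (mu : ℕ → ℂ) (𝔪' : Ideal (integralClosure ℤ ℂ)),
      g ≠ 0 ∧ 𝔪'.IsMaximal ∧ (p : integralClosure ℤ ℂ) ∈ 𝔪' ∧
      (∀ (ℓ : ℕ) (hℓ : ℓ.Prime) (hℓM : ¬ ℓ ∣ M), heckeTLin 2 hℓ hℓM g = mu ℓ • g) ∧
      (∀ (ℓ : ℕ) (_ : ℓ.Prime) (hℓM : ℓ ∣ M), heckeULin 2 hℓM g = mu ℓ • g) ∧
      (∀ ℓ ∈ PS, ∃ a : integralClosure ℤ ℂ, (a : ℂ) = mu ℓ ∧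
        a - ((c ℓ : ℤ) : integralClosure ℤ ℂ) ∈ 𝔪') ∧
      mu q ^ 2 = 1 := by
  let ι := castHom (Gamma0 M)
  have hι : Function.Injective ι := castHom_injective (Gamma0 M)
  refine levelRaising_tail_weak TX hE1 hE2 hE3 hES hq hp (K.map ι) (hKfg.map ι) ?_ PS hPS ?_ ?_ c
    (ι x) (Submodule.mem_map_of_mem hx) ?_ ?_
  · rintro _ ⟨φ, hφ, rfl⟩
    exact castHom_mem_parabolicHoms (hKpar hφ)
  · rintro ℓ hℓ _ ⟨φ, hφ, rfl⟩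
    exact ⟨TZ ℓ φ, hKstab ℓ hℓ φ hφ, hTZ ℓ (hPS ℓ hℓ) φ⟩
  · rintro _ ⟨φ, hφ, rfl⟩
    show TX q (TX q (ι φ)) = ι φ
    rw [← hTZ q hq, ← hTZ q hq, hKq φ hφ]
  · rintro ⟨_, ⟨y, hy, rfl⟩, hxy⟩
    apply hxp
    refine ⟨y, hy, hι ?_⟩
    rw [hxy, map_zsmul]
  · intro ℓ hℓ
    obtain ⟨y, hy, hxy⟩ := hcong ℓ hℓ
    refine ⟨ι y, Submodule.mem_map_of_mem hy, ?_⟩
    rw [← hTZ ℓ (hPS ℓ hℓ), ← map_zsmul, ← map_zsmul, ← map_sub, hxy]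

end Fermat.Agent.S41.ESFinal20
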